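import Fermat.Agent.S56.Defs
import Fermat.Agent.S55.B.LocS

/-!
# S56 / FLAT : definitions (owner helper16).   Briefing `S56-FLAT`.

`vp p = wq (pPrime p)` : the valuation of `Qb` above `p`, `vp p` of `p` is `1`;  `Dp p`, `Ip p` : decomposition and inertia groups.
`Coord p V act` : "integral coordinates" of a finite `G_ℚ`-module `V` killed by `p` which is the generic fibre of a finite flat group scheme over `ℤ_(p)`:
* `x i : V → Qb` (`i : Fin n`) = an `ℤ_(p)`-basis of the Hopf order `H' ⊆ Map(V, Qb)`; it is a `Qb`-basis of `Map(V, Qb)`;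
* `c i ℓ` = the coordinates of the character `t ↦ ζ ^ ℓ t` in this basis (`pair`); they are integral (the dual order);
* structure constants `δ` (addition), `ς` (negation), `μ` (multiplication), `e` (unit), rational and `p`-integral.
-/

set_option autoImplicit false

noncomputable section

namespace Fermat.Agent.S56.Flat

open Fermat.Agent.S55 Fermat.Agent.S55.B Fermat.Agent.S05 ExtCitation

/-- the valuation above `p` -/
abbrev vp (p : ℕ) [Fact p.Prime] : RVal Qb := wq (pPrime p)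
/-- decomposition group -/
abbrev Dp (p : ℕ) [Fact p.Prime] : Subgroup GQ := Dq (pPrime p)
/-- inertia group -/
abbrev Ip (p : ℕ) [Fact p.Prime] : Subgroup GQ := Iq (pPrime p)

/-- rational and `p`-integral -/
def RInt (p : ℕ) [Fact p.Prime] (z : Qb) : Prop :=
  ∃ r ∈ GaloisRep.ratLocalizedAt p, algebraMap ℚ Qb r = z

/-- the Cartier dual module -/
abbrev actD (p : ℕ) [Fact p.Prime] {V : Type} [AddCommGroup V] (act : GQ →* AddMonoid.End V) :
    GQ →* AddMonoid.End (V →+ ZMod p) := dualRho (cycloChar p) act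

structure Coord (p : ℕ) [Fact p.Prime] (V : Type) [AddCommGroup V] (act : GQ →* AddMonoid.End V) where
  n : ℕ
  x : Fin n → V → Qb
  c : Fin n → (V →+ ZMod p) → Qb
  ζ : Qb
  hζ : IsPrimitiveRoot ζ p
  x_int : ∀ i t, (vp p).GE (x i t) 0
  c_int : ∀ i ℓ, (vp p).GE (c i ℓ) 0
  x_eq : ∀ (σ : GQ) i t, σ (x i t) = x i (act σ t)
  c_eq : ∀ (σ : GQ) i ℓ, σ (c i ℓ) = c i (actD p act σ ℓ)
  pair : ∀ t ℓ, ∑ i, x i t * c i ℓ = ζ ^ (ℓ t).val
  li : LinearIndependent Qb x
  δ : Fin n → Fin n → Fin n → Qb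
  δ_int : ∀ i j k, RInt p (δ i j k)
  add : ∀ i t t', x i (t + t') = ∑ j, ∑ k, δ i j k * (x j t * x k t')
  ς : Fin n → Fin n → Qb
  ς_int : ∀ i j, RInt p (ς i j)
  neg : ∀ i t, x i (-t) = ∑ j, ς i j * x j t
  μ : Fin n → Fin n → Fin n → Qb
  μ_int : ∀ i j k, RInt p (μ i j k)
  mul : ∀ j k t, x j t * x k t = ∑ i, μ i j k * x i t
  e : Fin n → Qb
  e_int : ∀ i, RInt p (e i)
  one : ∀ t, ∑ i, e i * x i t = 1
  zero : ∀ i, RInt p (x i 0)

end Fermat.Agent.S56.Flat
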