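import Fermat.Agent.S56.Defs
import Fermat.Agent.S19.A.Descent
import Fermat.Agent.S19.A.Order
import Fermat.Agent.S19.A.Hopf

/-!
# S56 / FLAT / FH1 : the function model of a finite flat group scheme      (helper26, block FH)

`IsFlatMod p V act` : `V = Hom_R(H, Qb)`.  The image `H'` of `H` in `V → Qb` (`h ↦ (t ↦ t h)`) is an `R`-subalgebra, finite over `R = ℤ_(p)`,
of `G_ℚ`-equivariant functions separating the points of `V`, stable under `f ↦ f (t + t')`, with `f 0 ∈ R` (`FunModel`).
-/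

set_option autoImplicit false

open scoped TensorProduct

noncomputable section

namespace Fermat.Agent.S56.FH

open Fermat.Agent.S55

open Fermat.Agent.S19.A (RR)

variable {p : ℕ} {V : Type} [AddCommGroup V] {act : GQ →* AddMonoid.End V}

/-- the function model -/
structure FunModel (p : ℕ) (V : Type) [AddCommGroup V] (act : GQ →* AddMonoid.End V)
    (H : Subalgebra (RR p) (V → Qb)) : Prop where
  fin : Module.Finite (RR p) H
  equiv : ∀ f ∈ H, ∀ (σ : GQ) (t : V), σ (f t) = f (act σ t)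
  sep : ∀ t t' : V, t ≠ t' → ∃ f ∈ H, f t ≠ f t'
  comul : ∀ f ∈ H, ∃ (J : Type) (S : Finset J) (a b : J → H), ∀ t t' : V,
    f (t + t') = ∑ j ∈ S, (a j : V → Qb) t * (b j : V → Qb) t'
  counit : ∀ f ∈ H, ∃ r : RR p, f 0 = algebraMap (RR p) Qb r

theorem exists_funModel (h : IsFlatMod p V act) : ∃ H, FunModel p V act H := by
  obtain ⟨H, _, _, hfin, -, -, e, hadd, heq⟩ := h
  let Φ : H →ₐ[RR p] (V → Qb) := AlgHom.pi (fun t => (e.symm t).ofConv)
  have hΦ : ∀ (x : H) (t : V), Φ x t = (e.symm t) x := fun _ _ => rfl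
  have hmul : ∀ t t' : V, e.symm (t + t') = e.symm t * e.symm t' := by
    intro t t'
    rw [Equiv.symm_apply_eq, hadd, Equiv.apply_symm_apply, Equiv.apply_symm_apply]
  have hone : e.symm 0 = 1 := by
    rw [Equiv.symm_apply_eq]
    have h1 := hadd 1 1
    rw [mul_one] at h1
    exact (left_eq_add.1 h1).symm
  refine ⟨Φ.range, ?_, ?_, ?_, ?_, ?_⟩
  · exact Module.Finite.of_surjective Φ.rangeRestrict.toLinearMap Φ.rangeRestrict_surjective
  · rintro _ ⟨x, rfl⟩ σ t
    show σ (Φ x t) = Φ x (act σ t)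
    rw [hΦ, hΦ]
    let σR : Qb →ₐ[RR p] Qb := (σ : Qb →ₐ[ℚ] Qb).restrictScalars (RR p)
    have h1 := heq σ (e.symm t) (WithConv.toConv (σR.comp (e.symm t).ofConv)) (fun _ => rfl)
    rw [Equiv.apply_symm_apply] at h1
    rw [← h1, Equiv.symm_apply_apply]
    rfl
  · intro t t' hne
    by_contra hcon
    push Not at hcon
    apply hne
    apply e.symm.injective
    apply WithConv.ext
    refine AlgHom.ext fun x => ?_
    exact hcon (Φ x) ⟨x, rfl⟩
  · rintro _ ⟨x, rfl⟩
    obtain ⟨S, hS⟩ := TensorProduct.exists_finset (Coalgebra.comul (R := RR p) x)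
    refine ⟨H × H, S, fun i => Φ.rangeRestrict i.1, fun i => Φ.rangeRestrict i.2, fun t t' => ?_⟩
    show Φ x (t + t') = ∑ j ∈ S, Φ j.1 t * Φ j.2 t'
    rw [hΦ, hmul, AlgHom.convMul_apply, hS, map_sum]
    refine Finset.sum_congr rfl fun j _ => ?_
    rw [Algebra.TensorProduct.lift_tmul]
    rfl
  · rintro _ ⟨x, rfl⟩
    refine ⟨Coalgebra.counit (R := RR p) x, ?_⟩
    show Φ x 0 = _
    rw [hΦ, hone]
    rfl

/-- the action of `G_ℚ` on `V` as a `MulAction` -/
@[reducible] def mulAct (act : GQ →* AddMonoid.End V) : MulAction GQ V where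
  smul σ t := act σ t
  one_smul t := by show act 1 t = t; rw [map_one]; rfl
  mul_smul σ τ t := by show act (σ * τ) t = act σ (act τ t); rw [map_mul]; rfl

namespace FunModel

variable {H : Subalgebra (RR p) (V → Qb)}

theorem span_eq_top [Finite V] (M : FunModel p V act H) :
    Submodule.span Qb (H : Set (V → Qb)) = ⊤ := by
  have h1 : Algebra.adjoin Qb (H : Set (V → Qb)) = ⊤ := by
    apply Fermat.Agent.S19.A.span_eq_top_of_separates
    intro a a' hne
    obtain ⟨f, hf, hne'⟩ := M.sep a a' hne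
    exact ⟨f, Algebra.subset_adjoin hf, hne'⟩
  have h2 := Algebra.adjoin_eq_span Qb (H : Set (V → Qb))
  have h3 : (Submonoid.closure (H : Set (V → Qb)) : Set (V → Qb)) = (H : Set (V → Qb)) := by
    have : Submonoid.closure (H : Set (V → Qb)) = H.toSubmonoid :=
      Submonoid.closure_eq H.toSubmonoid
    rw [this]; rfl
  rw [h3, h1] at h2
  rw [← h2]
  rfl

theorem exists_basis [Finite V] [Fact p.Prime] (M : FunModel p V act H) :
    ∃ (ι : Type) (_ : Fintype ι) (b : Module.Basis ι (RR p) H),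
      LinearIndependent Qb (fun i => ((b i : H) : V → Qb)) ∧
      Submodule.span Qb (Set.range fun i => ((b i : H) : V → Qb)) = ⊤ :=
  letI := mulAct act
  Fermat.Agent.S19.A.exists_basis H M.fin (fun f hf σ t => M.equiv f hf σ t) M.span_eq_top

theorem exists_basis_fin [Finite V] [Fact p.Prime] (M : FunModel p V act H) :
    ∃ (n : ℕ) (b : Module.Basis (Fin n) (RR p) H),
      LinearIndependent Qb (fun i => ((b i : H) : V → Qb)) ∧
      Submodule.span Qb (Set.range fun i => ((b i : H) : V → Qb)) = ⊤ := by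
  obtain ⟨ι, _, b, hli, hsp⟩ := M.exists_basis
  let E := Fintype.equivFin ι
  have h1 : (fun i => (((b.reindex E) i : H) : V → Qb)) =
      (fun i => ((b i : H) : V → Qb)) ∘ E.symm := by
    funext i
    simp [Module.Basis.reindex_apply]
  refine ⟨Fintype.card ι, b.reindex E, ?_, ?_⟩
  · rw [h1]
    exact hli.comp _ E.symm.injective
  · rw [h1, E.symm.surjective.range_comp]
    exact hsp

theorem neg [Finite V] (M : FunModel p V act H) (f : H) :
    ∃ f' : H, ∀ t, (f' : V → Qb) t = (f : V → Qb) (-t) := by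
  refine Fermat.Agent.S19.Hopf.neg_of_comul (fun h => ?_) f
  obtain ⟨J, S, a, b, hab⟩ := M.comul h h.2
  refine ⟨∑ j ∈ S, a j ⊗ₜ[RR p] b j, fun t t' => ?_⟩
  rw [map_sum, hab]
  exact Finset.sum_congr rfl fun j _ => by rw [Fermat.Agent.S19.Hopf.bx_tmul]; rfl

theorem isIntegral_apply (M : FunModel p V act H) (f : H) (t : V) :
    IsIntegral (RR p) ((f : V → Qb) t) := by
  have := M.fin
  have h1 : IsIntegral (RR p) f := Algebra.IsIntegral.isIntegral f
  exact h1.map ((Pi.evalAlgHom (RR p) (fun _ : V => Qb) t).comp H.val)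

end FunModel

end Fermat.Agent.S56.FH
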