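import Fermat.Agent.S56.Flat.FH1

/-!
# S56 / FLAT / FH2 : coordinates on a finite flat group scheme and on its Cartier dual      (helper26, block FH)

* `exists_coord` : an `R`-basis `x i` of the function model: equivariant functions `V → Qb` with integral values, a `Qb`-basis of `V → Qb`,
  with structure constants in `R = ℤ_(p)` for `x k (t + t')`, `x i 0`, `x i * x j`, `1`.
* `isIntegral_coord` : the coordinates `c i` of a character `χ` of `V` in the basis `x i` are integral over `R`
  (`∑ R c i` is a subring: `c i * c j = ∑ k, δ k i j * c k`, `1 = ∑ ε i * c i`).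
-/

set_option autoImplicit false

noncomputable section

namespace Fermat.Agent.S56.FH

open Fermat.Agent.S55
open Fermat.Agent.S19.A (RR)

/-- products of linearly independent functions are linearly independent -/
theorem li_prod {Ω X Y ι κ : Type} [Field Ω] [Fintype ι] [Fintype κ] {x : ι → X → Ω} {y : κ → Y → Ω}
    (hx : LinearIndependent Ω x) (hy : LinearIndependent Ω y) :
    LinearIndependent Ω (fun (q : ι × κ) => fun (s : X × Y) => x q.1 s.1 * y q.2 s.2) := by
  rw [Fintype.linearIndependent_iff] at *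
  intro g hg q
  obtain ⟨i, j⟩ := q
  have h1 : ∀ (a : X) (b : Y), ∑ i, ∑ j, g (i, j) * (x i a * y j b) = 0 := by
    intro a b
    have := congrFun hg (a, b)
    simpa [Fintype.sum_prod_type, Finset.sum_apply] using this
  have h2 : ∀ (b : Y) (i : ι), ∑ j, g (i, j) * y j b = 0 := by
    intro b
    apply hx
    funext a
    have := h1 a b
    simp only [Finset.sum_apply, Pi.smul_apply, smul_eq_mul, Pi.zero_apply]
    rw [← this]
    refine Finset.sum_congr rfl fun i _ => ?_
    rw [Finset.sum_mul]
    refine Finset.sum_congr rfl fun j _ => ?_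
    ring
  refine hy (fun j => g (i, j)) ?_ j
  funext b
  simpa [Finset.sum_apply] using h2 b i

variable {p : ℕ} {V : Type} [AddCommGroup V] {act : GQ →* AddMonoid.End V}

theorem coe_eq_sum {H : Subalgebra (RR p) (V → Qb)} {ι : Type} [Fintype ι]
    (b : Module.Basis ι (RR p) H) (f : H) (t : V) :
    (f : V → Qb) t = ∑ i, algebraMap (RR p) Qb (b.repr f i) * ((b i : H) : V → Qb) t := by
  conv_lhs => rw [← b.sum_repr f]
  rw [AddSubmonoidClass.coe_finsetSum, Finset.sum_apply]
  refine Finset.sum_congr rfl fun i _ => ?_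
  show ((b.repr f i) • ((b i : H) : V → Qb)) t = _
  rw [Pi.smul_apply, Algebra.smul_def]

theorem exists_coord [Finite V] [Fact p.Prime] (h : IsFlatMod p V act) :
    ∃ (n : ℕ) (x : Fin n → V → Qb),
      (∀ i (σ : GQ) t, σ (x i t) = x i (act σ t)) ∧
      (∀ i t, IsIntegral (RR p) (x i t)) ∧
      LinearIndependent Qb x ∧ Submodule.span Qb (Set.range x) = ⊤ ∧
      (∃ δ : Fin n → Fin n → Fin n → RR p, ∀ k t t',
        x k (t + t') = ∑ i, ∑ j, algebraMap (RR p) Qb (δ k i j) * (x i t * x j t')) ∧
      (∃ ε : Fin n → RR p, ∀ i, x i 0 = algebraMap (RR p) Qb (ε i)) ∧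
      (∃ μ : Fin n → Fin n → Fin n → RR p, ∀ i j t,
        x i t * x j t = ∑ k, algebraMap (RR p) Qb (μ i j k) * x k t) ∧
      (∃ u : Fin n → RR p, ∀ t, (1 : Qb) = ∑ k, algebraMap (RR p) Qb (u k) * x k t) ∧
      (∃ ς : Fin n → Fin n → RR p, ∀ i t, x i (-t) = ∑ j, algebraMap (RR p) Qb (ς i j) * x j t) := by
  obtain ⟨H, M⟩ := exists_funModel h
  obtain ⟨n, b, hli, hsp⟩ := M.exists_basis_fin
  refine ⟨n, fun i => ((b i : H) : V → Qb), fun i σ t => M.equiv _ (b i).2 σ t,
    fun i t => M.isIntegral_apply (b i) t, hli, hsp, ?_, ?_, ?_, ?_, ?_⟩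
  · have h1 : ∀ k, ∃ δ : Fin n → Fin n → RR p, ∀ t t', ((b k : H) : V → Qb) (t + t') =
        ∑ i, ∑ j, algebraMap (RR p) Qb (δ i j) * (((b i : H) : V → Qb) t * ((b j : H) : V → Qb) t') := by
      intro k
      obtain ⟨J, S, a, a', ha⟩ := M.comul _ (b k).2
      refine ⟨fun i j => ∑ s ∈ S, b.repr (a s) i * b.repr (a' s) j, fun t t' => ?_⟩
      rw [ha]
      simp only [map_sum, map_mul, Finset.sum_mul]
      rw [Finset.sum_congr rfl fun i _ => Finset.sum_comm, Finset.sum_comm]
      refine Finset.sum_congr rfl fun s _ => ?_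
      rw [coe_eq_sum b (a s) t, coe_eq_sum b (a' s) t', Finset.sum_mul_sum]
      refine Finset.sum_congr rfl fun i _ => Finset.sum_congr rfl fun j _ => ?_
      ring
    choose δ hδ using h1
    exact ⟨δ, hδ⟩
  · have h1 := fun i => M.counit _ (b i).2
    choose ε hε using h1
    exact ⟨ε, hε⟩
  · exact ⟨fun i j k => b.repr (b i * b j) k, fun i j t => coe_eq_sum b (b i * b j) t⟩
  · exact ⟨fun k => b.repr 1 k, fun t => coe_eq_sum b 1 t⟩
  · have h1 := fun i => M.neg (b i)
    choose f' hf' using h1
    exact ⟨fun i j => b.repr (f' i) j, fun i t => (hf' i t).symm.trans (coe_eq_sum b (f' i) t)⟩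

/-- the coordinates of a character are integral -/
theorem isIntegral_coord {ι : Type} [Fintype ι] (x : ι → V → Qb) (hli : LinearIndependent Qb x)
    (δ : ι → ι → ι → RR p)
    (hδ : ∀ k t t', x k (t + t') = ∑ i, ∑ j, algebraMap (RR p) Qb (δ k i j) * (x i t * x j t'))
    (ε : ι → RR p) (hε : ∀ i, x i 0 = algebraMap (RR p) Qb (ε i))
    (χ : V → Qb) (hχ : ∀ t t', χ (t + t') = χ t * χ t') (hχ0 : χ 0 = 1)
    (c : ι → Qb) (hc : ∀ t, χ t = ∑ i, c i * x i t) (i : ι) : IsIntegral (RR p) (c i) := by
  have hmul : ∀ i j, c i * c j = ∑ k, algebraMap (RR p) Qb (δ k i j) * c k := by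
    have h1 := li_prod hli hli
    rw [Fintype.linearIndependent_iff] at h1
    have h2 := h1 (fun q => c q.1 * c q.2 - ∑ k, algebraMap (RR p) Qb (δ k q.1 q.2) * c k) (by
      funext s
      obtain ⟨t, t'⟩ := s
      simp only [Finset.sum_apply, Pi.smul_apply, smul_eq_mul, Pi.zero_apply,
        Fintype.sum_prod_type, sub_mul, Finset.sum_sub_distrib]
      rw [sub_eq_zero]
      have e1 : ∑ i, ∑ j, c i * c j * (x i t * x j t') = χ (t + t') := by
        rw [hχ, hc t, hc t', Finset.sum_mul_sum]
        refine Finset.sum_congr rfl fun i _ => Finset.sum_congr rfl fun j _ => ?_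
        ring
      rw [e1, hc (t + t')]
      simp only [hδ, Finset.mul_sum, Finset.sum_mul]
      rw [Finset.sum_comm]
      refine Finset.sum_congr rfl fun i _ => ?_
      rw [Finset.sum_comm]
      refine Finset.sum_congr rfl fun j _ => Finset.sum_congr rfl fun k _ => ?_
      ring)
    intro i j
    exact sub_eq_zero.1 (h2 (i, j))
  let N : Submodule (RR p) Qb := Submodule.span (RR p) (Set.range c)
  have h1N : (1 : Qb) ∈ N := by
    rw [← hχ0, hc 0]
    refine Submodule.sum_mem _ fun i _ => ?_
    rw [hε, mul_comm, ← Algebra.smul_def]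
    exact Submodule.smul_mem _ _ (Submodule.subset_span ⟨i, rfl⟩)
  refine isIntegral_of_smul_mem_submodule N ?_ ?_ (c i) ?_
  · intro h
    rw [h, Submodule.mem_bot] at h1N
    exact one_ne_zero h1N
  · exact Submodule.fg_span (Set.finite_range c)
  · intro n hn
    induction hn using Submodule.span_induction with
    | mem y hy =>
      obtain ⟨j, rfl⟩ := hy
      rw [smul_eq_mul, hmul]
      refine Submodule.sum_mem _ fun k _ => ?_
      rw [← Algebra.smul_def]
      exact Submodule.smul_mem _ _ (Submodule.subset_span ⟨k, rfl⟩)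
    | zero => rw [smul_zero]; exact Submodule.zero_mem _
    | add y z _ _ hy hz => rw [smul_add]; exact Submodule.add_mem _ hy hz
    | smul r y _ hy => rw [smul_comm]; exact Submodule.smul_mem _ _ hy

end Fermat.Agent.S56.FH
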