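import Fermat.Agent.S56.Flat.Defs
import Fermat.Agent.S56.Flat.FH2
import Fermat.Agent.S55.E.Chi
import Fermat.Agent.S19.A.Integral

/-!
# S56 / FLAT / FH3 : `IsFlatMod p V act → Nonempty (Coord p V act)`      (helper26, block FH; export (FH1) of the briefing `S56-FLAT`)
-/

set_option autoImplicit false

noncomputable section

namespace Fermat.Agent.S56.Flat

open Fermat.Agent.S55 Fermat.Agent.S55.B Fermat.Agent.S05 ExtCitation
open Fermat.Agent.S19.A (RR)

variable (p : ℕ) [Fact p.Prime]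

theorem ge_of_isIntegral {z : Qb} (h : IsIntegral (RR p) z) : (vp p).GE z 0 := by
  by_cases hz : z = 0
  · exact Or.inl hz
  · right
    rw [wq_nonneg_iff _ hz]
    exact Fermat.Agent.S19.A.mem_A_of_isIntegral (ℓ := p)
      (D.liesOverPrime_primeLocalPlace (pPrime p)) h

theorem rInt_algebraMap (r : RR p) : RInt p (algebraMap (RR p) Qb r) := ⟨r.1, r.2, rfl⟩

variable {p}

theorem pow_val_add {ζ : Qb} (hζ : ζ ^ p = 1) (a b : ZMod p) :
    ζ ^ (a + b).val = ζ ^ a.val * ζ ^ b.val := by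
  rw [ZMod.val_add, ← pow_add, ← pow_eq_pow_mod _ hζ]

theorem pow_val_mul {ζ : Qb} (hζ : ζ ^ p = 1) (a b : ZMod p) :
    ζ ^ (a * b).val = (ζ ^ a.val) ^ b.val := by
  rw [ZMod.val_mul, ← pow_mul, ← pow_eq_pow_mod _ hζ]

variable {V : Type} [AddCommGroup V] {act : GQ →* AddMonoid.End V}

/-- **(FH1)** -/
theorem coord_of_isFlatMod [Finite V] (h : IsFlatMod p V act) : Nonempty (Coord p V act) := by
  have : NeZero p := ⟨(Fact.out : p.Prime).ne_zero⟩
  obtain ⟨n, x, hxeq, hxint, hli, hsp, ⟨δ, hδ⟩, ⟨ε, hε⟩, ⟨μ, hμ⟩, ⟨u, hu⟩, ⟨ς, hς⟩⟩ :=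
    FH.exists_coord h
  obtain ⟨ζ, hζ⟩ := HasEnoughRootsOfUnity.exists_primitiveRoot Qb p
  have hζp : ζ ^ p = 1 := hζ.pow_eq_one
  have hex : ∀ ℓ : V →+ ZMod p, ∃ c : Fin n → Qb, ∀ t, ζ ^ (ℓ t).val = ∑ i, c i * x i t := by
    intro ℓ
    have h1 : (fun t => ζ ^ (ℓ t).val) ∈ Submodule.span Qb (Set.range x) := by
      rw [hsp]; trivial
    obtain ⟨c, hc⟩ := (Submodule.mem_span_range_iff_exists_fun Qb).1 h1
    refine ⟨c, fun t => ?_⟩
    have := congrFun hc t
    simp only [Finset.sum_apply, Pi.smul_apply, smul_eq_mul] at this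
    exact this.symm
  choose c hc using hex
  have huniq : ∀ a b : Fin n → Qb, (∀ t, ∑ i, a i * x i t = ∑ i, b i * x i t) → a = b := by
    intro a b hab
    rw [Fintype.linearIndependent_iff] at hli
    funext i
    have := hli (fun i => a i - b i) (by
      funext t
      simp only [Finset.sum_apply, Pi.smul_apply, smul_eq_mul, Pi.zero_apply, sub_mul,
        Finset.sum_sub_distrib]
      rw [hab t, sub_self]) i
    exact sub_eq_zero.1 this
  refine ⟨{
    n := n
    x := x
    c := fun i ℓ => c ℓ i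
    ζ := ζ
    hζ := hζ
    x_int := fun i t => ge_of_isIntegral p (hxint i t)
    c_int := fun i ℓ => ge_of_isIntegral p (FH.isIntegral_coord x hli δ hδ ε hε
      (fun t => ζ ^ (ℓ t).val) (fun t t' => by rw [map_add, pow_val_add hζp])
      (by simp) (c ℓ) (hc ℓ) i)
    x_eq := fun σ i t => hxeq i σ t
    c_eq := fun σ i ℓ => ?_
    pair := fun t ℓ => by
      rw [hc ℓ t]
      exact Finset.sum_congr rfl fun i _ => mul_comm _ _
    li := hli
    δ := fun i j k => algebraMap (RR p) Qb (δ i j k)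
    δ_int := fun i j k => rInt_algebraMap p _
    add := hδ
    ς := fun i j => algebraMap (RR p) Qb (ς i j)
    ς_int := fun i j => rInt_algebraMap p _
    neg := hς
    μ := fun i j k => algebraMap (RR p) Qb (μ j k i)
    μ_int := fun i j k => rInt_algebraMap p _
    mul := fun j k t => hμ j k t
    e := fun i => algebraMap (RR p) Qb (u i)
    e_int := fun i => rInt_algebraMap p _
    one := fun t => (hu t).symm
    zero := fun i => by rw [hε]; exact rInt_algebraMap p _ }⟩
  -- equivariance of the dual coordinates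
  have h1 : (fun i => σ (c ℓ i)) = c (actD p act σ ℓ) := by
    apply huniq
    intro t'
    rw [← hc]
    have h2 : t' = act σ (act σ⁻¹ t') := by
      have e1 : act σ (act σ⁻¹ t') = (act σ * act σ⁻¹) t' := rfl
      rw [e1, ← map_mul, mul_inv_cancel, map_one]; rfl
    have h3 := congrArg σ (hc ℓ (act σ⁻¹ t'))
    rw [map_sum] at h3
    simp only [map_mul, hxeq, ← h2] at h3
    rw [← h3, map_pow, Fermat.Agent.S55.E.cycloChar_spec p σ hζp, dualRho_apply, pow_val_mul hζp]
  exact congrFun h1 i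

end Fermat.Agent.S56.Flat
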