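import Fermat.Agent.S56.Defs

/-!
# S56 / FLAT / FH4 : dictionary `IsFlatAt → IsFlatMod`      (helper26, block FH; export (FH2) of the briefing `S56-FLAT`)

`ρ : GaloisRepAdic A` (`A` finite) with matrix `r` in some basis, flat at `p`; `π : A →+* B` surjective.  Then the module of column vectors `Fin 2 → B`
with the action of the matrices `π (r σ)` is `IsFlatMod` (level `I = ker π`).
-/

set_option autoImplicit false

noncomputable section

namespace Fermat.Agent.S56.Flat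

open Fermat.Agent.S53 (M2 HasMatrix HasMatrixRes Keps)
open Fermat.Agent.S55

variable {p : ℕ}

/-- transport of structure -/
theorem isFlatMod_of_level {A : Type} [CommRing A] [IsLocalRing A] (ρ : GaloisRepAdic A) (I : Ideal A)
    (hI : Finite (A ⧸ I)) (hf : ρ.IsFlatAt p) {W : Type} [AddCommGroup W]
    (act' : GQ →* AddMonoid.End W) (φ : (ρ.V ⧸ (I • (⊤ : Submodule A ρ.V))) ≃+ W)
    (hφ : ∀ σ v, φ (ρ.levelAction I σ v) = act' σ (φ v)) : IsFlatMod p W act' := by
  obtain ⟨H, i1, i2, h1, h2, h3, e, he, heq⟩ := hf.2 I hI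
  refine ⟨H, i1, i2, h1, h2, h3, e.trans φ.toEquiv, fun f g => ?_, fun σ f g hfg => ?_⟩
  · show φ (e (f * g)) = φ (e f) + φ (e g)
    rw [he, map_add]
  · show φ (e g) = act' σ (φ (e f))
    rw [heq σ f g hfg, hφ]

theorem IsFlatMod.transport {V W : Type} [AddCommGroup V] [AddCommGroup W]
    {act : GQ →* AddMonoid.End V} {act' : GQ →* AddMonoid.End W} (φ : V ≃+ W)
    (hφ : ∀ σ v, φ (act σ v) = act' σ (φ v)) (h : IsFlatMod p V act) : IsFlatMod p W act' := by
  obtain ⟨H, i1, i2, h1, h2, h3, e, he, heq⟩ := h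
  refine ⟨H, i1, i2, h1, h2, h3, e.trans φ.toEquiv, fun f g => ?_, fun σ f g hfg => ?_⟩
  · show φ (e (f * g)) = φ (e f) + φ (e g)
    rw [he, map_add]
  · show φ (e g) = act' σ (φ (e f))
    rw [heq σ f g hfg, hφ]

/-- **(FH2)**, general form -/
theorem isFlatMod_map {A B : Type} [CommRing A] [IsLocalRing A] [Finite A] [CommRing B]
    (π : A →+* B) (hπ : Function.Surjective π) (ρ : GaloisRepAdic A) (r : GQ → M2 A)
    (hr : HasMatrix ρ r) (hf : ρ.IsFlatAt p) (rb : GQ → M2 B) (h1b : rb 1 = 1)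
    (hmulb : ∀ σ τ, rb (σ * τ) = rb σ * rb τ) (hred : ∀ σ i j, π (r σ i j) = rb σ i j) :
    IsFlatMod p (Fin 2 → B) (rhoV rb h1b hmulb) := by
  obtain ⟨b, hb⟩ := hr
  let _ : Module A B := Module.compHom B π
  have hsmul : ∀ (a : A) (y : B), a • y = π a * y := fun _ _ => rfl
  let πL : A →ₗ[A] B :=
    { toFun := π
      map_add' := map_add π
      map_smul' := fun a x => by rw [smul_eq_mul, map_mul, RingHom.id_apply, hsmul] }
  let ψ : ρ.V →ₗ[A] (Fin 2 → B) := (πL.compLeft (Fin 2)).comp b.equivFun.toLinearMap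
  have hψ : ∀ x i, ψ x i = π (b.repr x i) := fun _ _ => rfl
  have hsurj : Function.Surjective ψ := by
    intro y
    choose a ha using fun i => hπ (y i)
    refine ⟨b.equivFun.symm a, ?_⟩
    funext i
    rw [hψ, ← ha i]
    congr 1
    have := congrFun (b.equivFun.apply_symm_apply a) i
    exact this
  have hker : (RingHom.ker π) • (⊤ : Submodule A ρ.V) = LinearMap.ker ψ := by
    apply le_antisymm
    · rw [Submodule.smul_le]
      intro a ha x _
      rw [LinearMap.mem_ker, map_smul]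
      funext i
      rw [Pi.smul_apply, hsmul, (RingHom.mem_ker).1 ha, zero_mul]
      rfl
    · intro x hx
      rw [← b.sum_repr x]
      refine Submodule.sum_mem _ fun i _ => ?_
      refine Submodule.smul_mem_smul ?_ trivial
      rw [RingHom.mem_ker, ← hψ, LinearMap.mem_ker.1 hx]
      rfl
  let φ : (ρ.V ⧸ ((RingHom.ker π) • (⊤ : Submodule A ρ.V))) ≃ₗ[A] (Fin 2 → B) :=
    (Submodule.quotEquivOfEq _ _ hker).trans (ψ.quotKerEquivOfSurjective hsurj)
  have hφ : ∀ x : ρ.V, φ (Submodule.Quotient.mk x) = ψ x := fun _ => rfl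
  refine isFlatMod_of_level ρ (RingHom.ker π)
    (Finite.of_surjective _ Ideal.Quotient.mk_surjective) hf _ φ.toAddEquiv ?_
  intro σ v
  obtain ⟨x, rfl⟩ := Submodule.Quotient.mk_surjective _ v
  show φ (ρ.levelAction (RingHom.ker π) σ (Submodule.Quotient.mk x)) =
    (rb σ).mulVec (φ (Submodule.Quotient.mk x))
  have h1 : ρ.levelAction (RingHom.ker π) σ (Submodule.Quotient.mk x) =
      Submodule.Quotient.mk (ρ.ρ σ x) := rfl
  rw [h1, hφ, hφ]
  funext i
  rw [hψ, ← LinearMap.toMatrix_mulVec_repr b b (ρ.ρ σ) x, hb σ]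
  simp only [Matrix.mulVec, dotProduct, map_sum, map_mul, hred, hψ]

section Keps

variable {𝒪 : Type} [CommRing 𝒪] [IsLocalRing 𝒪] [Finite (IsLocalRing.ResidueField 𝒪)]

theorem finite_keps : Finite (Keps 𝒪) :=
  inferInstanceAs (Finite (IsLocalRing.ResidueField 𝒪 × IsLocalRing.ResidueField 𝒪))

/-- **(FH2)**, level `⊥` -/
theorem isFlatMod_of_isFlatAt (ρ : GaloisRepAdic (Keps 𝒪)) (r : GQ → M2 (Keps 𝒪)) (h1 : r 1 = 1)
    (hmul : ∀ σ τ, r (σ * τ) = r σ * r τ) (hr : HasMatrix ρ r) (hf : ρ.IsFlatAt p) :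
    IsFlatMod p (Fin 2 → Keps 𝒪) (rhoV r h1 hmul) := by
  have := finite_keps (𝒪 := 𝒪)
  exact isFlatMod_map (RingHom.id _) Function.surjective_id ρ r hr hf r h1 hmul fun _ _ _ => rfl

/-- **(FH2)**, level `(ε)` -/
theorem isFlatMod_res (ρ : GaloisRepAdic (Keps 𝒪)) (r : GQ → M2 (Keps 𝒪)) (hr : HasMatrix ρ r)
    (hf : ρ.IsFlatAt p) (rb : GQ → M2 (IsLocalRing.ResidueField 𝒪)) (h1b : rb 1 = 1)
    (hmulb : ∀ σ τ, rb (σ * τ) = rb σ * rb τ)
    (hred : ∀ σ i j, TrivSqZeroExt.fst (r σ i j : DualNumber (IsLocalRing.ResidueField 𝒪)) = rb σ i j) :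
    IsFlatMod p (Fin 2 → IsLocalRing.ResidueField 𝒪) (rhoV rb h1b hmulb) := by
  have := finite_keps (𝒪 := 𝒪)
  let π : Keps 𝒪 →+* IsLocalRing.ResidueField 𝒪 :=
    ((TrivSqZeroExt.fstHom (IsLocalRing.ResidueField 𝒪) (IsLocalRing.ResidueField 𝒪)
      (IsLocalRing.ResidueField 𝒪)) : DualNumber (IsLocalRing.ResidueField 𝒪) →+* _)
  exact isFlatMod_map π (fun x => ⟨(TrivSqZeroExt.inl x : DualNumber _), rfl⟩) ρ r hr hf rb h1b hmulb hred

end Keps

end Fermat.Agent.S56.Flat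

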